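/-
Program A (S42 / S29 / S30 / S31), AJ-core skeleton of helper96 (`S42/H96/Skeleton.lean`),
leaf 3 (helper33): `LeafZR N p`, i.e. `Rel N p ψ 0 → ψ = 0` — the Kummer relation is injective
in the character.

Proof.  `Rel N p ψ 0` gives a polynomial `C` in the `j_d` with `div (evF C) = p • D`, `D` principal,
`D = div w₀`, and a holomorphic `G` with `G ^ p = Θ(C)` and character `ζ_p ^ ψ`.  Then
`evF C / w₀ ^ p` has trivial divisor, hence is a constant `c` (landed `S18.H78`); writing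
`w₀ = evF A / evF B` we get `Θ(C) Θ(B)^p = ι(c) Θ(A)^p` (landed `S24.Theta_eq_zero_iff`), so
`(G Θ(B))^p = (c₀ Θ(A))^p` on `ℍ`.  Finitely many non-zero holomorphic functions have a common
non-zero (landed `S29.H37.exists_forall_ne_zero`), hence `G Θ(B) = ξ c₀ Θ(A)` for one `p`-th root
of unity `ξ`; this function is `Γ₀(N)`-invariant and not identically zero, so the character
`ζ_p ^ ψ` is trivial and `ψ = 0`.
-/
import Mathlib
import Fermat.Agent.S42.H96.Skeleton
import Fermat.Agent.S24.Ker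
import Fermat.Agent.S24.Transl
import Fermat.Agent.S24.H47.Frac
import Fermat.Agent.S18.H78.ConstGeneric
import Fermat.Agent.S18.H55.DegJ
import Fermat.Agent.S29.H37.AnalyticAlgebraic

set_option autoImplicit false

open UpperHalfPlane CongruenceSubgroup ModularCurve ModularCurve.Period AlgebraicCurve
open Fermat.Agent.S24 Fermat.Agent.S42.H96
open scoped MatrixGroups Manifold

noncomputable section

namespace Fermat.Agent.S42.H33

/-- Two complex numbers with the same `p`-th power differ by a `p`-th root of unity. -/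
theorem exists_root_mul_of_pow_eq {p : ℕ} (hp : p ≠ 0) {x y : ℂ} (h : x ^ p = y ^ p) :
    ∃ ξ ∈ Polynomial.nthRootsFinset p (1 : ℂ), x = ξ * y := by
  have hp0 : 0 < p := Nat.pos_of_ne_zero hp
  by_cases hy : y = 0
  · refine ⟨1, (Polynomial.mem_nthRootsFinset hp0 1).mpr (one_pow p), ?_⟩
    rw [hy, zero_pow hp] at h
    rw [hy, mul_zero]
    exact pow_eq_zero_iff hp |>.mp h
  · refine ⟨x / y, (Polynomial.mem_nthRootsFinset hp0 1).mpr ?_, ?_⟩
    · rw [div_pow, h, div_self (pow_ne_zero p hy)]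
    · rw [div_mul_cancel₀ x hy]

/-- If at every point of `ℍ` one of finitely many holomorphic functions vanishes, then one of
them vanishes identically. -/
theorem exists_eq_zero_of_forall_exists {ι : Type*} [Finite ι] (f : ι → ℍ → ℂ)
    (hf : ∀ i, MDiff (f i)) (h : ∀ τ : ℍ, ∃ i, f i τ = 0) : ∃ i, f i = 0 := by
  by_contra hcon
  rw [not_exists] at hcon
  obtain ⟨τ, hτ⟩ := Fermat.Agent.S29.H37.exists_forall_ne_zero f hf hcon
  obtain ⟨i, hi⟩ := h τ
  exact hτ i hi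

/-- **Leaf 3 of the AJ-core skeleton**: `Rel N p ψ 0 → ψ = 0`. -/
theorem leafZR (N p : ℕ) [NeZero N] (hp : p ≠ 0) : LeafZR N p := by
  intro ψ h
  obtain ⟨C, D, hC, hD, hx, G, hG, hGp, hGc⟩ := h
  have hp0 : 0 < p := Nat.pos_of_ne_zero hp
  have : NeZero p := ⟨hp⟩
  -- `D` is principal
  have hmem : D ∈ (Divisor.principal (K := Kbar) (F := FF N)).addSubgroupOf
      (Divisor.degZero (K := Kbar) (F := FF N)) :=
    (QuotientAddGroup.eq_zero_iff _).mp hx.symm
  rw [AddSubgroup.mem_addSubgroupOf] at hmem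
  obtain ⟨w₀, hw₀, hw⟩ := hmem
  -- `evF C / w₀ ^ p` is a constant
  have hwp : w₀ ^ p ≠ 0 := pow_ne_zero p hw₀
  have hord : ∀ v : Place Kbar (FF N), v.ord (evF N C * (w₀ ^ p)⁻¹) = 0 := by
    intro v
    rw [v.ord_mul hC (inv_ne_zero hwp), v.ord_inv, ← zpow_natCast, v.ord_zpow, hD v, hw v]
    ring
  have := Fermat.Agent.S18.H55.finiteDimensional_jgen N
  obtain ⟨c, hc⟩ := Fermat.Agent.S18.H78.const_of_forall_ord_eq_zero (k := Kbar) (jgen N)
    (evF N C * (w₀ ^ p)⁻¹) hord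
  have hc0 : c ≠ 0 := by
    rintro rfl
    rw [map_zero] at hc
    exact mul_ne_zero hC (inv_ne_zero hwp) hc
  have hCw : evF N C = algebraMap Kbar (FF N) c * w₀ ^ p := by
    rw [← hc, mul_assoc, inv_mul_cancel₀ hwp, mul_one]
  -- `w₀ = evF A / evF B`
  obtain ⟨A, B, hB, hAB⟩ := Fermat.Agent.S24.H47.frac_evF N w₀
  have hA : evF N A ≠ 0 := by
    intro hA0
    apply hw₀
    rw [hAB, hA0, zero_div]
  -- the polynomial identity
  have hker : evF N (C * B ^ p - MvPolynomial.C c * A ^ p) = 0 := by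
    have h1 : evF N (MvPolynomial.C c) = algebraMap Kbar (FF N) c := by
      rw [← MvPolynomial.algebraMap_eq]
      exact (evF N).commutes c
    rw [map_sub, map_mul, map_mul, map_pow, map_pow, h1, hCw, hAB, div_pow, mul_assoc,
      div_mul_cancel₀ _ (pow_ne_zero p hB), sub_self]
  have hTh : Theta N C * Theta N B ^ p = Theta N (MvPolynomial.C c) * Theta N A ^ p := by
    have h1 := (Theta_eq_zero_iff N _).mpr hker
    rw [map_sub, map_mul, map_mul, map_pow, map_pow] at h1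
    exact sub_eq_zero.mp h1
  obtain ⟨c₀, hc₀⟩ := IsAlgClosed.exists_pow_nat_eq (iota c) hp0
  have hc₀0 : c₀ ≠ 0 := by
    rintro rfl
    rw [zero_pow hp] at hc₀
    exact hc0 ((map_eq_zero iota).mp hc₀.symm)
  have hpt : ∀ τ : ℍ, (G τ * Theta N B τ) ^ p = (c₀ * Theta N A τ) ^ p := by
    intro τ
    have h1 := congrFun hTh τ
    rw [Theta_C] at h1
    simp only [Pi.mul_apply, Pi.pow_apply] at h1
    rw [mul_pow, mul_pow, hGp τ, h1, hc₀]
  -- one of the functions `G Θ(B) - ξ c₀ Θ(A)` vanishes identically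
  let S := Polynomial.nthRootsFinset p (1 : ℂ)
  let f : S → ℍ → ℂ := fun ξ τ => G τ * Theta N B τ - (ξ : ℂ) * (c₀ * Theta N A τ)
  have hf : ∀ ξ : S, MDiff (f ξ) := by
    intro ξ
    have h1 : MDiff (fun τ => G τ * Theta N B τ) := hG.mul (mdiff_Theta N B)
    have h2 : MDiff (fun τ => (ξ : ℂ) * (c₀ * Theta N A τ)) :=
      (mdifferentiable_const (c := (ξ : ℂ))).mul
        ((mdifferentiable_const (c := c₀)).mul (mdiff_Theta N A))
    exact h1.sub h2
  have hex : ∀ τ : ℍ, ∃ ξ : S, f ξ τ = 0 := by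
    intro τ
    obtain ⟨ξ, hξ, hξe⟩ := exists_root_mul_of_pow_eq hp (hpt τ)
    exact ⟨⟨ξ, hξ⟩, sub_eq_zero.mpr hξe⟩
  obtain ⟨ξ, hξ⟩ := exists_eq_zero_of_forall_exists f hf hex
  have hξ1 : (ξ : ℂ) ^ p = 1 := (Polynomial.mem_nthRootsFinset hp0 1).mp ξ.2
  have hξ0 : (ξ : ℂ) ≠ 0 := by
    intro h0
    rw [h0, zero_pow hp] at hξ1
    exact zero_ne_one hξ1
  have hGB : ∀ τ : ℍ, G τ * Theta N B τ = (ξ : ℂ) * (c₀ * Theta N A τ) := fun τ =>
    sub_eq_zero.mp (congrFun hξ τ)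
  -- a point where `Θ(A)` does not vanish
  have hThA : Theta N A ≠ 0 := fun h0 => hA ((Theta_eq_zero_iff N A).mp h0)
  obtain ⟨τ₀, hτ₀⟩ := Function.ne_iff.mp hThA
  have hτ₀' : G τ₀ * Theta N B τ₀ ≠ 0 := by
    rw [hGB τ₀]
    exact mul_ne_zero hξ0 (mul_ne_zero hc₀0 hτ₀)
  -- the character is trivial
  have hchi : ∀ γ : Gamma0 N, chiOf p ψ γ = 1 := by
    intro γ
    have h1 := hGB ((γ : SL(2, ℤ)) • τ₀)
    rw [hGc γ τ₀, Theta_smul_of_mem N γ.2 B τ₀, Theta_smul_of_mem N γ.2 A τ₀, ← hGB τ₀,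
      mul_assoc] at h1
    exact mul_right_cancel₀ hτ₀' (h1.trans (one_mul _).symm)
  have hprim : IsPrimitiveRoot (zetaP p) p := Complex.isPrimitiveRoot_exp p hp
  ext γ
  have h1 : zetaP p ^ (ψ γ).val = 1 := hchi (Additive.toMul γ)
  have h2 : p ∣ (ψ γ).val := (hprim.pow_eq_one_iff_dvd _).mp h1
  have h3 : (ψ γ).val = 0 := Nat.eq_zero_of_dvd_of_lt h2 (ZMod.val_lt _)
  exact (ZMod.val_eq_zero _).mp h3

end Fermat.Agent.S42.H33
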